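import Mathlib
import Fermat.Agent.S17.HB.Loc1
import Fermat.Agent.S17.HB.Loc3

/-!
# Program MW (statement S17), strand HB, leaf LOC3: the exits

`HB/Loc3.lean` proves the specialisation theorems with the easy half of LOC1 as a hypothesis
(`Loc3.EasyHalf`).  Here the hypothesis is discharged by `Loc1.X_pow_dvd_closedFibre`
(`easyHalf`), which gives the exits of LOC3 in their final form:

* `divOf_spec` : `div Ψ_c = P(c) + n ∑ R_k(c) - n E₀ - Q₀` and `Ψ_c ≠ 0`;
* `ord_spec` : the same in terms of the orders at every place `T` of `F`;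
* `loc1_hyps` : at every place `T` the local series satisfies the hypotheses of the normal form
  LOC1 (`Loc1.order_value_zero`, `Loc1.order_jetAt`, and their `Loc1Gen` forms).
-/

set_option autoImplicit false

open AlgebraicCurve

namespace Fermat.Agent.S17.HB.Loc3

open Fermat.Agent.S17 Fermat.Agent.S17.D

/-- The easy half of LOC1. -/
theorem easyHalf (K : Type*) [Field K] (ι : Type*) [Fintype ι] : EasyHalf K ι :=
  fun _ C W r μ h0 hr hv => Loc1.X_pow_dvd_closedFibre C W r μ h0 hr hv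

variable {K F M : Type*} [Field K] [Field F] [Algebra K F] [Field M] [Algebra K M]
variable [IsAlgClosed K] [CharZero K] [Algebra.EssFiniteType K F] [Algebra.EssFiniteType K M]

/-- **LOC3, global form.**  The specialised function at a place `c` of `M` is non-zero and its
divisor is `P(c) + n ∑ R_k(c) - n E₀ - Q₀`. -/
theorem divOf_spec (htr : Algebra.trdeg K F = 1) (htrM : Algebra.trdeg K M = 1) {n g m : ℕ}
    {Q₀ : Place K F} {E₀ : Finset (Place K F)} (d : Data htr M n g m Q₀ E₀)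
    (c : Place K M) (cen : Option (Fin g) → Place K F) (hcen : ∀ x, IsCentre (d.ρ x) c (cen x))
    (ϖ : M) (hϖ : c.ord ϖ = 1) (e : ℕ) (he : ∀ j, ϖ ^ e * d.cM j ∈ c.toValuationSubring)
    (he0 : ∃ j, d.cM j ≠ 0 ∧ c.ord (ϖ ^ e * d.cM j) = 0) :
    (∑ j, PowerSeries.constantCoeff (tay htrM c ϖ hϖ (ϖ ^ e * d.cM j)) • d.v j) ≠ 0 ∧
    R.divOf K (∑ j, PowerSeries.constantCoeff (tay htrM c ϖ hϖ (ϖ ^ e * d.cM j)) • d.v j) =
      ∑ x : Option (Fin g), (mult n x : ℤ) • Finsupp.single (cen x) (1 : ℤ) -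
        (n : ℤ) • ∑ P ∈ E₀, Finsupp.single P (1 : ℤ) - Finsupp.single Q₀ 1 :=
  divOf_spec_of_easy htr htrM (easyHalf K _) d c cen hcen ϖ hϖ e he he0

open Classical in
/-- **LOC3, orders.**  The order at every place `T` of `F` of the specialised function. -/
theorem ord_spec (htr : Algebra.trdeg K F = 1) (htrM : Algebra.trdeg K M = 1) {n g m : ℕ}
    {Q₀ : Place K F} {E₀ : Finset (Place K F)} (d : Data htr M n g m Q₀ E₀)
    (c : Place K M) (cen : Option (Fin g) → Place K F) (hcen : ∀ x, IsCentre (d.ρ x) c (cen x))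
    (ϖ : M) (hϖ : c.ord ϖ = 1) (e : ℕ) (he : ∀ j, ϖ ^ e * d.cM j ∈ c.toValuationSubring)
    (he0 : ∃ j, d.cM j ≠ 0 ∧ c.ord (ϖ ^ e * d.cM j) = 0) (T : Place K F) :
    (poleBound n Q₀ E₀ T : ℤ) +
        T.ord (∑ j, PowerSeries.constantCoeff (tay htrM c ϖ hϖ (ϖ ^ e * d.cM j)) • d.v j) =
      ((∑ x : {x : Option (Fin g) // cen x = T}, mult n x.1 : ℕ) : ℤ) :=
  ord_spec_of_easy htr htrM (easyHalf K _) d c cen hcen ϖ hϖ e he he0 T

open Classical in
/-- **LOC3, local form.**  At every place `T` of `F` (uniformiser `t`) the local series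
`∑ j, C j (ϖ) * W j (t)` satisfies the hypotheses of the normal form LOC1, with the zeros `r x`,
`x` running over the points with centre `T`. -/
theorem loc1_hyps (htr : Algebra.trdeg K F = 1) (htrM : Algebra.trdeg K M = 1) {n g m : ℕ}
    {Q₀ : Place K F} {E₀ : Finset (Place K F)} (d : Data htr M n g m Q₀ E₀)
    (c : Place K M) (cen : Option (Fin g) → Place K F) (hcen : ∀ x, IsCentre (d.ρ x) c (cen x))
    (ϖ : M) (hϖ : c.ord ϖ = 1) (e : ℕ) (he : ∀ j, ϖ ^ e * d.cM j ∈ c.toValuationSubring)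
    (he0 : ∃ j, d.cM j ≠ 0 ∧ c.ord (ϖ ^ e * d.cM j) = 0)
    (T : Place K F) (t : F) (ht : T.ord t = 1)
    (C W : Fin (m + 1) → PowerSeries K)
    (hC : ∀ j, C j = tay htrM c ϖ hϖ (ϖ ^ e * d.cM j))
    (hW : ∀ j, W j = tay htr T t ht (t ^ poleBound n Q₀ E₀ T * d.v j))
    (r : {x : Option (Fin g) // cen x = T} → PowerSeries K)
    (hr : ∀ x, r x = tay htrM c ϖ hϖ (d.ρ x.1 t)) :
    (∀ j, t ^ poleBound n Q₀ E₀ T * d.v j ∈ T.toValuationSubring) ∧
    (∀ x : {x : Option (Fin g) // cen x = T}, d.ρ x.1 t ∈ c.toValuationSubring) ∧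
    (∀ x, PowerSeries.constantCoeff (r x) = 0) ∧ Function.Injective r ∧
    (∀ x, ∀ i < mult n x.1, ∑ j, C j * (hasse i (W j)).subst (r x) = 0) ∧
    (∑ j, PowerSeries.constantCoeff (C j) • W j).order =
      ((∑ x : {x : Option (Fin g) // cen x = T}, mult n x.1 : ℕ) : ℕ∞) :=
  loc1_hyps_of_easy htr htrM (easyHalf K _) d c cen hcen ϖ hϖ e he he0 T t ht C W hC hW r hr

end Fermat.Agent.S17.HB.Loc3
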