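import Mathlib
import Fermat.Agent.S17.HB.DivCurve
import Fermat.Agent.S17.HB.Loc3.Exit

/-!
# Program MW (statement S17), strand HB, leaf LOC3: the division curve as LOC3 data

The adapter from the structure `DivCurve` (`HB/DivCurve.lean`, produced by block CAR) to the
hypothesis structure `Loc3.Data` of LOC3 and of block DEG:

* `pts dc : Option (Fin dc.g) → (F →ₐ[K] M)` : the generic point `dc.ρ₀` and the moving points
  `dc.ρ k`; `pts_injective`;
* `ofDivCurve htr dc chain : Loc3.Data htr M n dc.g dc.m Q₀ E₀`, with `ρ = pts dc`, `cM = dc.c`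
  (so `cM 0 = 1`), `b₁ = 1`, `δ` the derivation of the division curve; `chain` is the chain rule
  for `δ` (block CAR, leaf DER);
* `exists_exponent` : a family of functions on `M` one of which is `1` has a normalising exponent
  `e : ℕ` at every place `c` of `M` (the hypotheses `he`, `he0` of LOC3);
* `isCentre_centre`, `IsCentre.eq` : the centre exists (LOC2's `centre`) and is unique;
* `exists_spec` : for the centres `P` of the generic point and `R k` of the moving points at a
  place `c` of `M` there is a function `Ψ ≠ 0` with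
  `div Ψ = P + n ∑ R k - n E₀ - Q₀` (the divisor clause of `DivPtCore.FibrePt`).
-/

set_option autoImplicit false

open AlgebraicCurve

namespace Fermat.Agent.S17.HB.Loc3

open Fermat.Agent.S17 Fermat.Agent.S17.D

variable {K F M : Type*} [Field K] [Field F] [Algebra K F] [Field M] [Algebra K M]

section Points

variable {n : ℕ} {Q₀ : Place K F} {E₀ : Finset (Place K F)} {δ : Derivation K F F}

/-- The points of a division curve: the generic point and the moving points. -/
def pts (dc : DivCurve M n Q₀ E₀ δ) : Option (Fin dc.g) → (F →ₐ[K] M)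
  | none => dc.ρ₀
  | some k => dc.ρ k

@[simp] theorem pts_none (dc : DivCurve M n Q₀ E₀ δ) : pts dc none = dc.ρ₀ := rfl

@[simp] theorem pts_some (dc : DivCurve M n Q₀ E₀ δ) (k : Fin dc.g) : pts dc (some k) = dc.ρ k :=
  rfl

theorem pts_injective (dc : DivCurve M n Q₀ E₀ δ) : Function.Injective (pts dc) := by
  intro x y h
  cases x with
  | none =>
    cases y with
    | none => rfl
    | some k => exact absurd h.symm (dc.ρ_ne₀ k)
  | some k =>
    cases y with
    | none => exact absurd h (dc.ρ_ne₀ k)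
    | some k' =>
      by_contra hne
      exact dc.ρ_ne k k' (fun hk => hne (by rw [hk])) h

theorem card_E₀_eq (dc : DivCurve M n Q₀ E₀ δ) : E₀.card = dc.g := by
  classical
  have h : E₀ = Finset.univ.image dc.E := by
    ext v
    rw [dc.mem_E₀ v]
    simp
  have h2 : (Finset.univ.image dc.E).card = dc.g := by
    rw [Finset.card_image_of_injective _ dc.E_inj, Finset.card_univ, Fintype.card_fin]
  exact (congrArg Finset.card h).trans h2

end Points

section Curve

variable [IsAlgClosed K] [CharZero K] [Algebra.EssFiniteType K F]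
variable {n : ℕ} {Q₀ : Place K F} {E₀ : Finset (Place K F)} {δ : Derivation K F F}

/-- The LOC3 data of a division curve (`chain` : the chain rule for its derivation). -/
def ofDivCurve (htr : Algebra.trdeg K F = 1) (dc : DivCurve M n Q₀ E₀ δ)
    (chain : ChainRule htr δ) : Data htr M n dc.g dc.m Q₀ E₀ where
  v := dc.v
  v_indep := dc.v_indep
  v_mem := dc.v_mem
  card_E₀ := card_E₀_eq dc
  ρ := pts dc
  ρ_inj := pts_injective dc
  cM := dc.c
  generic := dc.generic
  δ := δ
  chain := chain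
  b₁ := 1
  b₁_ne := one_ne_zero
  jets := fun k i hi => by simpa only [one_mul, pts_some] using dc.jets k i hi

@[simp] theorem ofDivCurve_v (htr : Algebra.trdeg K F = 1) (dc : DivCurve M n Q₀ E₀ δ)
    (chain : ChainRule htr δ) : (ofDivCurve htr dc chain).v = dc.v := rfl

@[simp] theorem ofDivCurve_cM (htr : Algebra.trdeg K F = 1) (dc : DivCurve M n Q₀ E₀ δ)
    (chain : ChainRule htr δ) : (ofDivCurve htr dc chain).cM = dc.c := rfl

@[simp] theorem ofDivCurve_ρ (htr : Algebra.trdeg K F = 1) (dc : DivCurve M n Q₀ E₀ δ)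
    (chain : ChainRule htr δ) : (ofDivCurve htr dc chain).ρ = pts dc := rfl

@[simp] theorem ofDivCurve_δ (htr : Algebra.trdeg K F = 1) (dc : DivCurve M n Q₀ E₀ δ)
    (chain : ChainRule htr δ) : (ofDivCurve htr dc chain).δ = δ := rfl

@[simp] theorem ofDivCurve_b₁ (htr : Algebra.trdeg K F = 1) (dc : DivCurve M n Q₀ E₀ δ)
    (chain : ChainRule htr δ) : (ofDivCurve htr dc chain).b₁ = 1 := rfl

theorem ofDivCurve_cM_zero (htr : Algebra.trdeg K F = 1) (dc : DivCurve M n Q₀ E₀ δ)
    (chain : ChainRule htr δ) : (ofDivCurve htr dc chain).cM 0 = 1 := dc.c_zero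

/-- A family of functions on `M` one of which is `1` has a normalising exponent `e : ℕ` at every
place `c` of `M`: the hypotheses `he`, `he0` of LOC3. -/
theorem exists_exponent {ι : Type*} [Fintype ι] (a : ι → F) (j₁ : ι) (h1 : a j₁ = 1)
    (c : Place K F) (ϖ : F) (hϖ : c.ord ϖ = 1) :
    ∃ e : ℕ, (∀ j, ϖ ^ e * a j ∈ c.toValuationSubring) ∧
      ∃ j, a j ≠ 0 ∧ c.ord (ϖ ^ e * a j) = 0 := by
  classical
  have hj₁ : a j₁ ≠ 0 := by
    rw [h1]
    exact one_ne_zero
  obtain ⟨j₀, hj₀S, hmin⟩ := Finset.exists_min_image (Finset.univ.filter fun j => a j ≠ 0)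
    (fun j => c.ord (a j)) ⟨j₁, Finset.mem_filter.mpr ⟨Finset.mem_univ _, hj₁⟩⟩
  have hj₀ : a j₀ ≠ 0 := (Finset.mem_filter.mp hj₀S).2
  have hle : c.ord (a j₀) ≤ 0 := by
    have h := hmin j₁ (Finset.mem_filter.mpr ⟨Finset.mem_univ _, hj₁⟩)
    rwa [h1, Place.ord_one] at h
  have e1 : (((-c.ord (a j₀)).toNat : ℕ) : ℤ) = -c.ord (a j₀) := Int.toNat_of_nonneg (by omega)
  refine ⟨(-c.ord (a j₀)).toNat, fun j => ?_, j₀, hj₀, ?_⟩
  · rcases eq_or_ne (a j) 0 with h0 | h0
    · rw [h0, mul_zero]
      exact zero_mem _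
    · have hne : ϖ ^ (-c.ord (a j₀)).toNat * a j ≠ 0 :=
        mul_ne_zero (pow_ne_zero _ (R.Taylor.unif_ne_zero c hϖ)) h0
      refine (Fermat.Agent.S24.FF.ord_nonneg_iff c hne).mp ?_
      rw [ord_pow_mul c hϖ _ h0]
      have h := hmin j (Finset.mem_filter.mpr ⟨Finset.mem_univ _, h0⟩)
      omega
  · rw [ord_pow_mul c hϖ _ hj₀]
    omega

omit [IsAlgClosed K] [CharZero K] [Algebra.EssFiniteType K F] in
/-- The centre exists: LOC2's `centre`. -/
theorem isCentre_centre (ρ : F →ₐ[K] M) (hρ : ρ.toRingHom.IsIntegral) (c : Place K M) :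
    IsCentre ρ c (Loc2.centre ρ hρ c) := rfl

omit [IsAlgClosed K] [CharZero K] [Algebra.EssFiniteType K F] in
/-- The centre is unique. -/
theorem IsCentre.eq {ρ : F →ₐ[K] M} {c : Place K M} {T T' : Place K F} (h : IsCentre ρ c T)
    (h' : IsCentre ρ c T') : T = T' :=
  Place.ext (h.trans h'.symm)

variable [Algebra.EssFiniteType K M]

/-- **LOC3 for a division curve, divisor form.**  For the centres `P` of the generic point and
`R k` of the moving points at a place `c` of `M` there is a function `Ψ ≠ 0` with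
`div Ψ = P + n ∑ R k - n E₀ - Q₀`. -/
theorem exists_spec (htr : Algebra.trdeg K F = 1) (htrM : Algebra.trdeg K M = 1)
    (dc : DivCurve M n Q₀ E₀ δ) (chain : ChainRule htr δ) (c : Place K M)
    (P : Place K F) (hP : IsCentre dc.ρ₀ c P) (Rk : Fin dc.g → Place K F)
    (hR : ∀ k, IsCentre (dc.ρ k) c (Rk k)) :
    ∃ Ψ : F, Ψ ≠ 0 ∧ R.divOf K Ψ =
      Finsupp.single P (1 : ℤ) + (n : ℤ) • ∑ k, Finsupp.single (Rk k) (1 : ℤ) -
        (n : ℤ) • ∑ v ∈ E₀, Finsupp.single v (1 : ℤ) - Finsupp.single Q₀ (1 : ℤ) := by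
  obtain ⟨ϖ, hϖ⟩ := exists_unif c
  obtain ⟨e, he, he0⟩ := exists_exponent dc.c 0 dc.c_zero c ϖ hϖ
  have hcen : ∀ x : Option (Fin dc.g),
      IsCentre ((ofDivCurve htr dc chain).ρ x) c (x.elim P Rk) := by
    intro x
    cases x with
    | none => exact hP
    | some k => exact hR k
  obtain ⟨h0, hdiv⟩ := divOf_spec htr htrM (ofDivCurve htr dc chain) c (fun x => x.elim P Rk) hcen
    ϖ hϖ e he he0
  refine ⟨_, h0, ?_⟩
  rw [hdiv, Fintype.sum_option]
  simp only [mult, Option.elim_none, Option.elim_some, Nat.cast_one, one_smul, Finset.smul_sum]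

end Curve

end Fermat.Agent.S17.HB.Loc3
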